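import Fermat.Agent.ThreePrimes.Exponential
import Mathlib.Analysis.InnerProductSpace.Basic
import Mathlib.Analysis.Normed.Operator.LinearIsometry

/-!
# Exponential sums bound sums along orbits

If `|∑ c n e (n θ)| ≤ B` for all `θ` then `‖∑ c n Uⁿ x‖ ≤ B ‖x‖` for every isometry `U`, by
Parseval on long cyclic groups.
-/

set_option autoImplicit false

noncomputable section

namespace FA.PrimeMeanErgodic

open Finset
open FA.ThreePrimes (eAdd)
open scoped InnerProductSpace ComplexConjugate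

variable {H : Type*} [NormedAddCommGroup H] [InnerProductSpace ℂ H]

/-- Orthogonality of the characters of `ℤ / M`. -/
theorem sum_grid_mul_conj {M : ℕ} (hM : 0 < M) {σ : ℤ} (hσ : σ = 1 ∨ σ = -1) {r t : ℕ}
    (hr : r < M) (ht : t < M) :
    ∑ k ∈ range M, eAdd ((σ : ℝ) * r * k / M) * conj (eAdd ((σ : ℝ) * t * k / M)) =
      if r = t then (M : ℂ) else 0 := by
  have e : ∀ k : ℕ, eAdd ((σ : ℝ) * r * k / M) * conj (eAdd ((σ : ℝ) * t * k / M)) =
      eAdd (((σ * r - σ * t : ℤ) : ℝ) * k / M) := fun k => by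
    rw [ThreePrimes.conj_eAdd, ← ThreePrimes.eAdd_add]
    congr 1
    push_cast
    ring
  rw [sum_congr rfl fun k _ => e k, ThreePrimes.sum_eAdd_grid hM]
  refine if_congr ⟨fun hdvd => ?_, fun h => by simp [h]⟩ rfl rfl
  have h0 := Int.eq_zero_of_abs_lt_dvd hdvd (by
    rcases hσ with rfl | rfl <;> rw [abs_lt] <;> constructor <;> omega)
  rcases hσ with rfl | rfl <;> omega

/-- Parseval on `ℤ / M` with values in `H`. -/
theorem sum_norm_sq_grid {M : ℕ} (hM : 0 < M) {σ : ℤ} (hσ : σ = 1 ∨ σ = -1) (h : ℕ → H) :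
    ∑ k ∈ range M, ‖∑ r ∈ range M, eAdd (((σ * r : ℤ) : ℝ) * k / M) • h r‖ ^ 2 =
      M * ∑ r ∈ range M, ‖h r‖ ^ 2 := by
  apply Complex.ofReal_injective
  push_cast
  have e : ∀ v : H, ((‖v‖ : ℂ)) ^ 2 = ⟪v, v⟫_ℂ := fun v =>
    (inner_self_eq_norm_sq_to_K (𝕜 := ℂ) v).symm
  simp only [e, sum_inner, inner_sum, inner_smul_left, inner_smul_right, mul_sum, ← mul_assoc]
  rw [sum_comm]
  refine sum_congr rfl fun r hr => ?_
  rw [sum_comm, sum_congr rfl fun t ht => by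
    rw [← sum_mul, sum_grid_mul_conj hM hσ (mem_range.1 hr) (mem_range.1 ht)]]
  simp only [ite_mul, zero_mul, sum_ite_eq, hr, if_true]

/-- **The transfer.** -/
theorem norm_sum_orbit_le (U : H →ₗᵢ[ℂ] H) (s : Finset ℕ) (c : ℕ → ℂ) {B : ℝ}
    (hB : ∀ θ : ℝ, ‖∑ n ∈ s, c n * eAdd ((n : ℝ) * θ)‖ ≤ B) (x : H) :
    ‖∑ n ∈ s, c n • U^[n] x‖ ≤ B * ‖x‖ := by
  obtain ⟨L, hL⟩ : ∃ L, ∀ n ∈ s, n ≤ L := ⟨s.sup id, fun n hn => le_sup (f := id) hn⟩
  have hB0 : 0 ≤ B := (norm_nonneg _).trans (hB 0)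
  obtain ⟨w, hw⟩ : ∃ w, w = ∑ n ∈ s, c n • U^[n] x := ⟨_, rfl⟩
  rw [← hw]
  have hnorm : ∀ (k : ℕ) (v : H), ‖U^[k] v‖ = ‖v‖ := fun k v => by
    induction k with
    | zero => rfl
    | succ k ih => rw [Function.iterate_succ_apply', U.norm_map, ih]
  have key : ∀ K : ℕ, 0 < K → (K : ℝ) * ‖w‖ ^ 2 ≤ B ^ 2 * ((K + L) * ‖x‖ ^ 2) := by
    intro K hK
    obtain ⟨M, hM⟩ : ∃ M, M = K + L := ⟨_, rfl⟩
    have hM0 : 0 < M := by omega
    have hM' : (0 : ℝ) < (M : ℝ) ^ 2 := by positivity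
    obtain ⟨T, hT⟩ : ∃ T : ℕ → H, T = fun r : ℕ =>
        ∑ j ∈ range M, eAdd (((-1 * j : ℤ) : ℝ) * r / M) • U^[j] x := ⟨_, rfl⟩
    obtain ⟨P, hP⟩ : ∃ P : ℕ → ℂ, P = fun r : ℕ =>
        ∑ n ∈ s, c n * eAdd ((n : ℝ) * ((r : ℝ) / M)) := ⟨_, rfl⟩
    have hinv : ∀ k, k < K → ∑ r ∈ range M, eAdd (((1 * r : ℤ) : ℝ) * k / M) • (P r • T r) =
        (M : ℂ) • U^[k] w := by
      intro k hk
      simp only [hP, hT, smul_smul, smul_sum, sum_mul, sum_smul]
      rw [sum_comm, hw, ← LinearIsometry.coe_pow, map_sum, smul_sum]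
      simp only [map_smul, LinearIsometry.coe_pow, ← Function.iterate_add_apply]
      rw [sum_congr rfl fun j _ => sum_comm, sum_comm]
      refine sum_congr rfl fun n hn => ?_
      have e : ∀ r j : ℕ, eAdd (((1 * r : ℤ) : ℝ) * k / M) *
          (c n * eAdd ((n : ℝ) * ((r : ℝ) / M)) * eAdd (((-1 * j : ℤ) : ℝ) * r / M)) =
            c n * eAdd (((k + n - j : ℤ) : ℝ) * r / M) := fun r j => by
        rw [mul_assoc (c n), mul_left_comm, ← ThreePrimes.eAdd_add, ← ThreePrimes.eAdd_add]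
        congr 2
        push_cast
        ring
      simp only [← sum_smul, e, ← mul_sum, ThreePrimes.sum_eAdd_grid hM0]
      rw [sum_eq_single_of_mem (k + n) (mem_range.2 (by have := hL n hn; omega))]
      · rw [if_pos (by push_cast; simp), smul_smul, mul_comm, Nat.add_comm k n]
      · intro j hj hne
        rw [if_neg, mul_zero, zero_smul]
        intro hdvd
        rw [mem_range] at hj
        have := hL n hn
        have h0 := Int.eq_zero_of_abs_lt_dvd hdvd (by rw [abs_lt]; constructor <;> omega)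
        omega
    refine le_of_mul_le_mul_left ?_ hM'
    calc (M : ℝ) ^ 2 * ((K : ℝ) * ‖w‖ ^ 2)
        = ∑ k ∈ range K, ‖(M : ℂ) • U^[k] w‖ ^ 2 := by
          simp only [norm_smul, Complex.norm_natCast, hnorm, mul_pow, sum_const, card_range,
            nsmul_eq_mul]
          ring
      _ ≤ ∑ k ∈ range M, ‖∑ r ∈ range M, eAdd (((1 * r : ℤ) : ℝ) * k / M) • (P r • T r)‖ ^ 2 := by
          refine le_trans (le_of_eq (sum_congr rfl fun k hk => ?_))
            (sum_le_sum_of_subset_of_nonneg (range_mono (show K ≤ M by omega))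
              fun k _ _ => sq_nonneg _)
          rw [hinv k (mem_range.1 hk)]
      _ = M * ∑ r ∈ range M, ‖P r • T r‖ ^ 2 := sum_norm_sq_grid hM0 (Or.inl rfl) _
      _ ≤ M * ∑ r ∈ range M, B ^ 2 * ‖T r‖ ^ 2 := by
          refine mul_le_mul_of_nonneg_left (sum_le_sum fun r _ => ?_) (Nat.cast_nonneg M)
          rw [norm_smul, mul_pow, hP]
          exact mul_le_mul_of_nonneg_right (pow_le_pow_left₀ (norm_nonneg _) (hB _) 2) (sq_nonneg _)
      _ = (M : ℝ) * (B ^ 2 * (M * ∑ j ∈ range M, ‖U^[j] x‖ ^ 2)) := by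
          rw [← mul_sum, hT, sum_norm_sq_grid hM0 (Or.inr rfl)]
      _ = (M : ℝ) ^ 2 * (B ^ 2 * ((K + L) * ‖x‖ ^ 2)) := by
          simp only [hnorm, sum_const, card_range, nsmul_eq_mul]
          rw [hM]
          push_cast
          ring
  refine (pow_le_pow_iff_left₀ (norm_nonneg _) (mul_nonneg hB0 (norm_nonneg _)) two_ne_zero).1
    (le_of_forall_pos_le_add fun ε hε => ?_)
  obtain ⟨K, hK⟩ := exists_nat_gt ((B * ‖x‖) ^ 2 * L / ε)
  have hK0 : (0 : ℝ) < K := lt_of_le_of_lt (by positivity) hK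
  rw [div_lt_iff₀ hε] at hK
  have := key K (Nat.cast_pos.1 hK0)
  refine le_of_mul_le_mul_left ?_ hK0
  linarith

end FA.PrimeMeanErgodic
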