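import Fermat.Agent.DenseThreePrimes.Majorant
import Fermat.Agent.PrimeMeanErgodic.Transfer
import Fermat.Agent.Root.SummaryPrimeNumberTheorem
import Mathlib.Analysis.InnerProductSpace.MeanErgodic
import Mathlib.NumberTheory.Primorial

/-!
# The averages of the powers of an isometry over the primes

In each class prime to the primorial `Q` of a large `W` the weights of the primes are close to
the constant, so the averages over the primes are close to means of von Neumann's averages along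
progressions, hence form a Cauchy sequence.
-/

set_option autoImplicit false

noncomputable section

namespace FA.PrimeMeanErgodic

open Finset Filter
open FA.ThreePrimes (eAdd geomSum)
open FA.DenseThreePrimes (trickWeight trickSum)
open FA.ShiftedPrimeDifferences (classPrimes mem_classPrimes)
open scoped Topology Nat.Prime

variable {H : Type*} [NormedAddCommGroup H] [InnerProductSpace ℂ H]

theorem norm_iterate (U : H →ₗᵢ[ℂ] H) (k : ℕ) (v : H) : ‖U^[k] v‖ = ‖v‖ := by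
  induction k with
  | zero => rfl
  | succ k ih => rw [Function.iterate_succ_apply', U.norm_map, ih]

/-- `∑ log p • Uᵖ x` over the primes up to `N`. -/
def primeSum (U : H →ₗᵢ[ℂ] H) (N : ℕ) (x : H) : H :=
  ∑ p ∈ (Icc 1 N).filter Nat.Prime, (Real.log p : ℂ) • U^[p] x

/-- The classes prime to `Q`. -/
def unitClasses (Q : ℕ) : Finset ℕ := (range Q).filter fun a => a.Coprime Q

theorem card_unitClasses (Q : ℕ) : (unitClasses Q).card = Q.totient := by
  rw [Nat.totient_eq_card_coprime, unitClasses]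
  exact congrArg card (filter_congr fun a _ => Nat.coprime_comm)

/-- The mean over the classes of the averages along them. -/
def classMean (U : H →ₗᵢ[ℂ] H) (Q L : ℕ) (x : H) : H :=
  (Q.totient : ℂ)⁻¹ • ∑ a ∈ unitClasses Q, (L : ℂ)⁻¹ • ∑ n ∈ Icc 1 L, U^[Q * n + a] x

/-- **One class.** -/
theorem norm_class_sum_le (U : H →ₗᵢ[ℂ] H) {Q a L N : ℕ} (hQ : 0 < Q) (haQ : a < Q) {η : ℝ}
    (hfour : ∀ θ : ℝ, ‖trickSum Q a L θ - geomSum L θ‖ ≤ η * L) (hN : Q * L ≤ N)
    (hN' : N < Q * L + Q) (x : H) :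
    ‖(((Q.totient : ℝ) / Q : ℝ) : ℂ) • ∑ p ∈ classPrimes Q a N, (Real.log p : ℂ) • U^[p] x -
      ∑ n ∈ Icc 1 L, U^[Q * n + a] x‖ ≤ (η * L + Q + Real.log ((N + Q : ℕ) : ℝ)) * ‖x‖ := by
  obtain ⟨w, hw⟩ : ∃ w : ℝ, w = (Q.totient : ℝ) / Q := ⟨_, rfl⟩
  have hw0 : 0 ≤ w := hw ▸ by positivity
  have hw1 : w ≤ 1 := hw ▸ DenseThreePrimes.totient_div_le_one Q
  rw [← hw]
  obtain ⟨F, hF⟩ : ∃ F : ℕ → H, F = fun p : ℕ => (Real.log p : ℂ) • U^[p] x := ⟨_, rfl⟩
  have hFn : ∀ p : ℕ, ‖F p‖ = Real.log p * ‖x‖ := fun p => by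
    rw [hF, norm_smul, norm_iterate, Complex.norm_real, Real.norm_eq_abs,
      abs_of_nonneg (Real.log_natCast_nonneg p)]
  rw [show ∑ p ∈ classPrimes Q a N, (Real.log p : ℂ) • U^[p] x = ∑ p ∈ classPrimes Q a N, F p by
    rw [hF]]
  have e1 : ∑ p ∈ classPrimes Q a N, F p =
      ∑ n ∈ range (L + 1), if (Q * n + a).Prime ∧ Q * n + a ≤ N then F (Q * n + a) else 0 := by
    rw [← sum_filter]
    refine sum_nbij' (fun m => m / Q) (fun n => Q * n + a) ?_ ?_ ?_ ?_ ?_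
    · intro m hm
      obtain ⟨hle, hp, hmod⟩ := mem_classPrimes.1 hm
      rw [Nat.mod_eq_of_lt haQ] at hmod
      have e2 := Nat.div_add_mod m Q
      rw [hmod] at e2
      simp only [mem_filter, mem_range]
      refine ⟨Nat.lt_of_mul_lt_mul_left (a := Q) (by rw [mul_add, mul_one]; omega), ?_⟩
      rw [e2]
      exact ⟨hp, hle⟩
    · intro n hn
      simp only [mem_filter, mem_range] at hn
      exact mem_classPrimes.2 ⟨hn.2.2, hn.2.1, by rw [Nat.mul_add_mod]⟩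
    · intro m hm
      obtain ⟨-, -, hmod⟩ := mem_classPrimes.1 hm
      rw [Nat.mod_eq_of_lt haQ] at hmod
      have e2 := Nat.div_add_mod m Q
      rw [hmod] at e2
      exact e2
    · intro n _
      rw [Nat.mul_add_div hQ, Nat.div_eq_of_lt haQ, add_zero]
    · intro m hm
      obtain ⟨-, -, hmod⟩ := mem_classPrimes.1 hm
      rw [Nat.mod_eq_of_lt haQ] at hmod
      have e2 := Nat.div_add_mod m Q
      rw [hmod] at e2
      simp only [e2]
  obtain ⟨G, hG⟩ : ∃ G : ℕ → H, G = fun n =>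
      (trickWeight Q a n : ℂ) • U^[Q * n + a] x := ⟨_, rfl⟩
  have hhead : ∀ P : Prop, [Decidable P] → ‖if P then F a else 0‖ ≤ (Q : ℝ) * ‖x‖ := fun P _ => by
    split_ifs
    · rw [hFn]
      exact mul_le_mul_of_nonneg_right ((Real.log_le_self (Nat.cast_nonneg a)).trans
        (Nat.cast_le.2 haQ.le)) (norm_nonneg x)
    · rw [norm_zero]
      positivity
  have hmain : ‖(w : ℂ) • ∑ p ∈ classPrimes Q a N, F p - ∑ n ∈ Icc 1 L, G n‖ ≤
      ((Q : ℝ) + Real.log ((N + Q : ℕ) : ℝ)) * ‖x‖ := by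
    rw [e1, range_eq_Ico, sum_eq_sum_Ico_succ_bot (Nat.succ_pos L),
      show Ico (0 + 1) (L + 1) = Icc 1 L from rfl, smul_add, add_sub_assoc, smul_sum,
      ← sum_sub_distrib, add_mul]
    refine (norm_add_le _ _).trans (add_le_add ?_ ?_)
    · simp only [mul_zero, zero_add]
      rw [norm_smul, Complex.norm_real, Real.norm_eq_abs, abs_of_nonneg hw0]
      exact (mul_le_of_le_one_left (norm_nonneg _) hw1).trans (hhead _)
    · have e3 : ∀ n ∈ Icc 1 L, n ≠ L →
          (w : ℂ) • (if (Q * n + a).Prime ∧ Q * n + a ≤ N then F (Q * n + a) else 0) - G n = 0 := by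
        intro n hn hne
        have hle : Q * n + a ≤ N := by
          have := Nat.mul_le_mul_left Q (show n + 1 ≤ L by rw [mem_Icc] at hn; omega)
          rw [mul_add, mul_one] at this
          omega
        rw [hG, hF]
        simp only [hle, and_true, trickWeight, ← hw]
        split_ifs <;>
          simp only [smul_smul, Complex.ofReal_mul, mul_zero, Complex.ofReal_zero, zero_smul,
            smul_zero, sub_self]
      rcases Nat.eq_zero_or_pos L with rfl | hL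
      · rw [Icc_eq_empty (by omega), sum_empty, norm_zero]
        positivity
      rw [sum_eq_single_of_mem L (mem_Icc.2 ⟨hL, le_rfl⟩) e3]
      have hG' : G L = (w : ℂ) • if (Q * L + a).Prime then F (Q * L + a) else 0 := by
        rw [hG, hF]
        simp only [trickWeight, ← hw]
        split_ifs <;>
          simp only [smul_smul, Complex.ofReal_mul, mul_zero, Complex.ofReal_zero, zero_smul,
            smul_zero]
      rw [hG', ← smul_sub, norm_smul, Complex.norm_real, Real.norm_eq_abs, abs_of_nonneg hw0]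
      refine (mul_le_of_le_one_left (norm_nonneg _) hw1).trans ?_
      have hlog : ‖F (Q * L + a)‖ ≤ Real.log ((N + Q : ℕ) : ℝ) * ‖x‖ := by
        rw [hFn]
        refine mul_le_mul_of_nonneg_right ?_ (norm_nonneg x)
        exact Real.log_le_log (Nat.cast_pos.2 (by have := Nat.mul_pos hQ hL; omega))
          (Nat.cast_le.2 (by omega))
      have h0 : 0 ≤ Real.log ((N + Q : ℕ) : ℝ) * ‖x‖ :=
        mul_nonneg (Real.log_natCast_nonneg _) (norm_nonneg x)
      split_ifs <;> simp only [sub_self, sub_zero, zero_sub, norm_neg, norm_zero] <;>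
        first | exact hlog | exact h0
  have hfour' : ‖∑ n ∈ Icc 1 L, G n - ∑ n ∈ Icc 1 L, U^[Q * n + a] x‖ ≤ η * L * ‖x‖ := by
    have e4 : ∑ n ∈ Icc 1 L, G n - ∑ n ∈ Icc 1 L, U^[Q * n + a] x =
        ∑ n ∈ Icc 1 L, ((trickWeight Q a n : ℂ) - 1) • (U ^ Q)^[n] (U^[a] x) := by
      rw [← sum_sub_distrib]
      refine sum_congr rfl fun n _ => ?_
      rw [hG, LinearIsometry.coe_pow, ← Function.iterate_mul, ← Function.iterate_add_apply,
        sub_smul, one_smul]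
    rw [e4]
    refine (norm_sum_orbit_le (U ^ Q) (Icc 1 L) _ (fun θ => ?_) _).trans
      (le_of_eq (by rw [norm_iterate]))
    refine le_trans (le_of_eq (congrArg _ ?_)) (hfour θ)
    rw [trickSum, geomSum, show Ioc 0 L = Icc 1 L from by ext n; simp [mem_Ioc, mem_Icc]; omega,
      ← sum_sub_distrib]
    exact sum_congr rfl fun n _ => by ring
  calc ‖(w : ℂ) • ∑ p ∈ classPrimes Q a N, F p - ∑ n ∈ Icc 1 L, U^[Q * n + a] x‖
      = ‖((w : ℂ) • ∑ p ∈ classPrimes Q a N, F p - ∑ n ∈ Icc 1 L, G n) +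
          (∑ n ∈ Icc 1 L, G n - ∑ n ∈ Icc 1 L, U^[Q * n + a] x)‖ := by rw [sub_add_sub_cancel]
    _ ≤ ((Q : ℝ) + Real.log ((N + Q : ℕ) : ℝ)) * ‖x‖ + η * L * ‖x‖ :=
        (norm_add_le _ _).trans (add_le_add hmain hfour')
    _ = _ := by ring

theorem norm_primeSum_le (U : H →ₗᵢ[ℂ] H) (N : ℕ) (x : H) :
    ‖primeSum U N x‖ ≤ Real.log 4 * N * ‖x‖ := by
  refine (norm_sum_le _ _).trans ?_
  simp only [norm_smul, norm_iterate, Complex.norm_real, Real.norm_eq_abs,
    abs_of_nonneg (Real.log_natCast_nonneg _), ← sum_mul]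
  refine mul_le_mul_of_nonneg_right (le_trans (le_of_eq ?_)
    (Chebyshev.theta_le_log4_mul_x (Nat.cast_nonneg N))) (norm_nonneg x)
  rw [Chebyshev.theta, Nat.floor_natCast]
  refine sum_congr ?_ fun _ _ => rfl
  ext p
  simp only [mem_filter, mem_Icc, mem_Ioc]
  exact ⟨fun h => ⟨⟨by omega, h.1.2⟩, h.2⟩, fun h => ⟨⟨by omega, h.1.2⟩, h.2⟩⟩

/-- The primes up to `N` by classes. -/
theorem primeSum_classes (U : H →ₗᵢ[ℂ] H) {Q : ℕ} (hQ : 0 < Q) (N : ℕ) (x : H) :
    ‖primeSum U N x -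
      ∑ a ∈ unitClasses Q, ∑ p ∈ classPrimes Q a N, (Real.log p : ℂ) • U^[p] x‖ ≤
        (Q : ℝ) * Q * ‖x‖ := by
  have e : ∑ a ∈ unitClasses Q, ∑ p ∈ classPrimes Q a N, (Real.log p : ℂ) • U^[p] x =
      ∑ p ∈ ((Icc 1 N).filter Nat.Prime).filter (fun p => p.Coprime Q),
        (Real.log p : ℂ) • U^[p] x := by
    rw [← sum_biUnion ?_]
    · refine sum_congr ?_ fun _ _ => rfl
      ext p
      simp only [mem_biUnion, unitClasses, mem_filter, mem_range, mem_classPrimes, mem_Icc]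
      constructor
      · rintro ⟨a, ⟨haQ, hac⟩, hle, hp, hmod⟩
        rw [Nat.mod_eq_of_lt haQ] at hmod
        refine ⟨⟨⟨hp.one_le, hle⟩, hp⟩, ?_⟩
        rw [Nat.coprime_comm, Nat.Coprime, Nat.gcd_rec, hmod]
        exact hac
      · rintro ⟨⟨⟨-, hle⟩, hp⟩, hc⟩
        refine ⟨p % Q, ⟨Nat.mod_lt _ hQ, ?_⟩, hle, hp, (Nat.mod_mod p Q).symm⟩
        rw [Nat.coprime_comm, Nat.Coprime, Nat.gcd_rec] at hc
        exact hc
    · intro a ha b hb hab
      simp only [unitClasses, mem_coe, mem_filter, mem_range] at ha hb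
      refine Finset.disjoint_left.2 fun p hp hp' => hab ?_
      have h := (mem_classPrimes.1 hp).2.2.symm.trans (mem_classPrimes.1 hp').2.2
      rwa [Nat.mod_eq_of_lt ha.1, Nat.mod_eq_of_lt hb.1] at h
  rw [e, primeSum, ← sum_filter_add_sum_filter_not _ (fun p => p.Coprime Q), add_sub_cancel_left]
  refine (norm_sum_le _ _).trans ((sum_le_card_nsmul _ _ ((Q : ℝ) * ‖x‖) fun p hp => ?_).trans ?_)
  · simp only [mem_filter] at hp
    have hdvd : p ∣ Q := by
      by_contra h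
      exact hp.2 (hp.1.2.coprime_iff_not_dvd.2 h)
    rw [norm_smul, norm_iterate, Complex.norm_real, Real.norm_eq_abs,
      abs_of_nonneg (Real.log_natCast_nonneg _)]
    exact mul_le_mul_of_nonneg_right ((Real.log_le_self (Nat.cast_nonneg p)).trans
      (Nat.cast_le.2 (Nat.le_of_dvd hQ hdvd))) (norm_nonneg x)
  · rw [nsmul_eq_mul, mul_assoc]
    refine mul_le_mul_of_nonneg_right (Nat.cast_le.2 ?_) (by positivity)
    refine (card_le_card (t := Icc 1 Q) fun p hp => ?_).trans (le_of_eq (by simp))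
    simp only [mem_filter] at hp
    refine mem_Icc.2 ⟨hp.1.2.one_le, Nat.le_of_dvd hQ ?_⟩
    by_contra h
    exact hp.2 (hp.1.2.coprime_iff_not_dvd.2 h)

/-- **The averages are close to means along progressions.** -/
theorem exists_close_classMean {η : ℝ} (hη : 0 < η) (hη1 : η ≤ 1) :
    ∃ Q : ℕ, 0 < Q ∧ ∀ᶠ N : ℕ in atTop, ∀ (U : H →ₗᵢ[ℂ] H) (x : H),
      ‖(N : ℂ)⁻¹ • primeSum U N x - classMean U Q (N / Q) x‖ ≤ η * ‖x‖ := by
  obtain ⟨ζ, hζ⟩ : ∃ ζ, ζ = η / 8 := ⟨_, rfl⟩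
  have hζ0 : 0 < ζ := hζ ▸ by linarith
  obtain ⟨W, hW⟩ : ∃ W, W = ⌈8 / ζ⌉₊ + 2 := ⟨_, rfl⟩
  have hWη : 8 ≤ ζ * W := by
    rw [mul_comm, ← div_le_iff₀ hζ0, hW]
    push_cast
    linarith [Nat.le_ceil (8 / ζ)]
  obtain ⟨Q, hQdef⟩ : ∃ Q, Q = primorial W := ⟨_, rfl⟩
  have hQ : 0 < Q := hQdef ▸ primorial_pos W
  have hWQ : ∀ p : ℕ, p.Prime → p ≤ W → p ∣ Q := fun p hp hpW =>
    hQdef ▸ (Nat.Prime.dvd_primorial_iff hp).2 hpW
  refine ⟨Q, hQ, ?_⟩
  obtain ⟨L₀, hL₀⟩ := eventually_atTop.1 ((eventually_all_finset (unitClasses Q)).2 fun a ha =>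
    DenseThreePrimes.eventually_trick_fourier hQ (mem_range.1 (mem_filter.1 ha).1)
      (mem_filter.1 ha).2 hWQ hζ0 hWη)
  obtain ⟨B, hB⟩ : ∃ B : ℕ, B = ⌈(Q : ℝ) / ζ⌉₊ + ⌈16 * (Q : ℝ) / ζ ^ 2⌉₊ + L₀ + 2 := ⟨_, rfl⟩
  filter_upwards [eventually_ge_atTop (Q * B)] with N hN U x
  obtain ⟨L, hL⟩ : ∃ L, L = N / Q := ⟨_, rfl⟩
  rw [← hL]
  have hBL : B ≤ L := hL ▸ (Nat.le_div_iff_mul_le hQ).2 (by rw [mul_comm]; exact hN)
  have hNL : Q * L ≤ N ∧ N < Q * L + Q := by
    have := Nat.div_add_mod N Q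
    have := Nat.mod_lt N hQ
    rw [hL]
    omega
  have hQ1 : (1 : ℝ) ≤ Q := Nat.one_le_cast.2 hQ
  have hL1 : (0 : ℝ) < L := Nat.cast_pos.2 (by omega)
  have hN1 : (0 : ℝ) < N := Nat.cast_pos.2 (by
    have := Nat.mul_pos hQ (show 0 < L by omega); omega)
  have hBr : (Q : ℝ) / ζ + 16 * (Q : ℝ) / ζ ^ 2 ≤ L := by
    have h := Nat.cast_le (α := ℝ).2 hBL
    rw [hB] at h
    push_cast at h
    linarith [Nat.le_ceil ((Q : ℝ) / ζ), Nat.le_ceil (16 * (Q : ℝ) / ζ ^ 2),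
      Nat.cast_nonneg (α := ℝ) L₀]
  have hQL : (Q : ℝ) ≤ ζ * L := by
    rw [mul_comm, ← div_le_iff₀ hζ0]
    have : (0 : ℝ) ≤ 16 * (Q : ℝ) / ζ ^ 2 := by positivity
    linarith
  have hlog : Real.log ((N + Q : ℕ) : ℝ) ≤ 2 * ζ * L := by
    have h1 : ((N + Q : ℕ) : ℝ) ≤ 4 * Q * L := by
      refine (Nat.cast_le.2 (show N + Q ≤ 4 * Q * L by nlinarith [show 1 ≤ L by omega])).trans
        (le_of_eq (by push_cast; ring))
    refine (Real.log_le_rpow_div (Nat.cast_nonneg _) (show (0 : ℝ) < 1 / 2 by norm_num)).trans ?_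
    rw [← Real.sqrt_eq_rpow, div_le_iff₀ (by norm_num)]
    refine (Real.sqrt_le_sqrt h1).trans ((Real.sqrt_le_left (by positivity)).2 ?_)
    have h2 : 16 * (Q : ℝ) / ζ ^ 2 ≤ L := by
      have : (0 : ℝ) ≤ Q / ζ := by positivity
      linarith
    rw [div_le_iff₀ (by positivity)] at h2
    nlinarith [mul_le_mul_of_nonneg_right h2 hL1.le]
  obtain ⟨S, hS⟩ : ∃ S, S = ∑ a ∈ unitClasses Q,
      ∑ p ∈ classPrimes Q a N, (Real.log p : ℂ) • U^[p] x := ⟨_, rfl⟩
  have hφ : (0 : ℝ) < Q.totient := Nat.cast_pos.2 (Nat.totient_pos.2 hQ)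
  have h1 : ‖((Q * L : ℕ) : ℂ)⁻¹ • S - classMean U Q L x‖ ≤ 4 * ζ * ‖x‖ := by
    have e : ((Q * L : ℕ) : ℂ)⁻¹ • S - classMean U Q L x =
        ((Q.totient : ℂ) * L)⁻¹ • ∑ a ∈ unitClasses Q, ((((Q.totient : ℝ) / Q : ℝ) : ℂ) •
          ∑ p ∈ classPrimes Q a N, (Real.log p : ℂ) • U^[p] x -
            ∑ n ∈ Icc 1 L, U^[Q * n + a] x) := by
      rw [hS, classMean, sum_sub_distrib, ← smul_sum, ← smul_sum, smul_sub, smul_smul, smul_smul]
      have hφ' : (Q.totient : ℂ) ≠ 0 := Nat.cast_ne_zero.2 (Nat.totient_pos.2 hQ).ne'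
      have hQ' : (Q : ℂ) ≠ 0 := Nat.cast_ne_zero.2 hQ.ne'
      congr 2
      · push_cast
        field_simp
      · rw [mul_inv]
    rw [e, norm_smul, norm_inv, norm_mul, Complex.norm_natCast, Complex.norm_natCast]
    rw [inv_mul_le_iff₀ (by positivity)]
    refine (norm_sum_le _ _).trans ((sum_le_card_nsmul _ _ (4 * ζ * L * ‖x‖) fun a ha => ?_).trans
      (le_of_eq ?_))
    · refine (norm_class_sum_le U hQ (mem_range.1 (mem_filter.1 ha).1)
        (fun θ => hL₀ L (by omega) a ha θ) hNL.1 hNL.2 x).trans ?_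
      refine mul_le_mul_of_nonneg_right ?_ (norm_nonneg x)
      linarith
    · rw [card_unitClasses, nsmul_eq_mul]
      ring
  have h2 : ‖((Q * L : ℕ) : ℂ)⁻¹ • (primeSum U N x - S)‖ ≤ ζ * ‖x‖ := by
    rw [norm_smul, norm_inv, Complex.norm_natCast, inv_mul_le_iff₀ (Nat.cast_pos.2 (Nat.mul_pos hQ
      (show 0 < L by omega)))]
    refine (hS ▸ primeSum_classes U hQ N x).trans ?_
    push_cast
    rw [← mul_assoc]
    refine mul_le_mul_of_nonneg_right ?_ (norm_nonneg x)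
    linarith [mul_le_mul_of_nonneg_left hQL (show (0 : ℝ) ≤ Q by linarith)]
  have h3 : ‖(N : ℂ)⁻¹ • primeSum U N x - ((Q * L : ℕ) : ℂ)⁻¹ • primeSum U N x‖ ≤
      2 * ζ * ‖x‖ := by
    rw [← sub_smul, norm_smul]
    have hQL0 : (0 : ℝ) < ((Q * L : ℕ) : ℝ) :=
      Nat.cast_pos.2 (Nat.mul_pos hQ (show 0 < L by omega))
    have e : ‖(N : ℂ)⁻¹ - ((Q * L : ℕ) : ℂ)⁻¹‖ =
        ((Q * L : ℕ) : ℝ)⁻¹ - (N : ℝ)⁻¹ := by
      rw [show (N : ℂ)⁻¹ - ((Q * L : ℕ) : ℂ)⁻¹ =
        (((N : ℝ)⁻¹ - ((Q * L : ℕ) : ℝ)⁻¹ : ℝ) : ℂ) by push_cast; ring, Complex.norm_real,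
        Real.norm_eq_abs, abs_of_nonpos (sub_nonpos.2 ((inv_le_inv₀ hN1 hQL0).2
          (Nat.cast_le.2 hNL.1))), neg_sub]
    rw [e]
    refine (mul_le_mul_of_nonneg_left (norm_primeSum_le U N x)
      (sub_nonneg.2 ((inv_le_inv₀ hN1 hQL0).2 (Nat.cast_le.2 hNL.1)))).trans ?_
    rw [← mul_assoc]
    refine mul_le_mul_of_nonneg_right ?_ (norm_nonneg x)
    have h4 : Real.log 4 ≤ 2 := by
      have := Real.log_two_lt_d9
      rw [show (4 : ℝ) = 2 ^ 2 by norm_num, Real.log_pow]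
      push_cast
      linarith
    rw [inv_sub_inv hQL0.ne' hN1.ne', div_mul_eq_mul_div, div_le_iff₀ (by positivity)]
    have h5 : (N : ℝ) - ((Q * L : ℕ) : ℝ) ≤ Q := by
      rw [sub_le_iff_le_add', ← Nat.cast_add]
      exact Nat.cast_le.2 hNL.2.le
    have h6 : 0 ≤ (N : ℝ) - ((Q * L : ℕ) : ℝ) := sub_nonneg.2 (Nat.cast_le.2 hNL.1)
    calc ((N : ℝ) - ((Q * L : ℕ) : ℝ)) * (Real.log 4 * N) ≤ Q * (2 * N) :=
          mul_le_mul h5 (mul_le_mul_of_nonneg_right h4 hN1.le) (by positivity) (by linarith)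
      _ ≤ 2 * ζ * (((Q * L : ℕ) : ℝ) * N) := by
          push_cast
          have h7 : (Q : ℝ) ≤ ζ * (Q * L) := hQL.trans (mul_le_mul_of_nonneg_left
            (le_mul_of_one_le_left hL1.le hQ1) hζ0.le)
          linarith [mul_le_mul_of_nonneg_right h7 hN1.le]
  have e : (N : ℂ)⁻¹ • primeSum U N x - classMean U Q L x =
      ((N : ℂ)⁻¹ • primeSum U N x - ((Q * L : ℕ) : ℂ)⁻¹ • primeSum U N x) +
        ((Q * L : ℕ) : ℂ)⁻¹ • (primeSum U N x - S) +
          (((Q * L : ℕ) : ℂ)⁻¹ • S - classMean U Q L x) := by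
    rw [smul_sub]
    abel
  rw [e]
  refine (norm_add₃_le ..).trans ?_
  rw [hζ] at h1 h2 h3
  linarith [mul_nonneg hη.le (norm_nonneg x)]

/-- The weights `log p / N` and `1 / π N` differ by `o (1)` in `ℓ¹`. -/
theorem tendsto_weights :
    Tendsto (fun N : ℕ => ∑ p ∈ (Icc 1 N).filter Nat.Prime,
      |((π N : ℝ))⁻¹ - Real.log p / N|) atTop (𝓝 0) := by
  have hθ := PNT.Summary.tendsto_theta.comp (tendsto_natCast_atTop_atTop (R := ℝ))
  have hπ := PNT.Summary.prime_number_theorem.comp (tendsto_natCast_atTop_atTop (R := ℝ))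
  simp only [Function.comp_def, Nat.floor_natCast] at hθ hπ
  have hlim : Tendsto (fun N : ℕ => |1 - (π N : ℝ) * Real.log N / N| +
      ((π N : ℝ) * Real.log N / N - Chebyshev.theta N / N)) atTop (𝓝 (|1 - 1| + (1 - 1))) :=
    ((tendsto_const_nhds.sub hπ).abs).add (hπ.sub hθ)
  rw [sub_self, abs_zero, zero_add] at hlim
  refine squeeze_zero' (Eventually.of_forall fun N => sum_nonneg fun p _ => abs_nonneg _) ?_ hlim
  filter_upwards [eventually_ge_atTop 2] with N hN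
  have hcard : ((Icc 1 N).filter Nat.Prime).card = π N := by
    rw [Nat.primeCounting, Nat.primeCounting', Nat.count_eq_card_filter_range]
    congr 1
    ext p
    simp only [mem_filter, mem_Icc, mem_range]
    exact ⟨fun h => ⟨by omega, h.2⟩, fun h => ⟨⟨h.2.one_le, by omega⟩, h.2⟩⟩
  have hπ0 : (0 : ℝ) < π N := by
    rw [← hcard]
    exact Nat.cast_pos.2 (card_pos.2 ⟨2, mem_filter.2 ⟨mem_Icc.2 ⟨by norm_num, hN⟩, Nat.prime_two⟩⟩)
  have hN0 : (0 : ℝ) < N := Nat.cast_pos.2 (by omega)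
  refine (sum_le_sum (g := fun p : ℕ => |((π N : ℝ))⁻¹ - Real.log N / N| +
    (Real.log N / N - Real.log p / N)) fun p hp => ?_).trans (le_of_eq ?_)
  · rw [mem_filter, mem_Icc] at hp
    have h : Real.log p / N ≤ Real.log N / N := div_le_div_of_nonneg_right
      (Real.log_le_log (Nat.cast_pos.2 hp.2.pos) (Nat.cast_le.2 hp.1.2)) hN0.le
    refine (abs_sub_le _ (Real.log N / N) _).trans ?_
    rw [abs_of_nonneg (sub_nonneg.2 h)]
  · rw [sum_add_distrib, sum_sub_distrib, sum_const, sum_const, hcard, nsmul_eq_mul, nsmul_eq_mul,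
      ← sum_div, ← abs_of_pos hπ0, ← abs_mul, abs_of_pos hπ0]
    congr 1
    · congr 1
      field_simp
    · congr 1
      · ring
      · rw [Chebyshev.theta, Nat.floor_natCast]
        congr 1

/-- The two averages differ by `o (1)`. -/
theorem tendsto_average_sub (U : H →ₗᵢ[ℂ] H) (x : H) :
    Tendsto (fun N : ℕ => (π N : ℂ)⁻¹ • ∑ p ∈ (Icc 1 N).filter Nat.Prime, U^[p] x -
      (N : ℂ)⁻¹ • primeSum U N x) atTop (𝓝 0) := by
  refine squeeze_zero_norm (fun N => ?_) (by simpa using tendsto_weights.mul_const ‖x‖)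
  rw [primeSum, smul_sum, smul_sum, ← sum_sub_distrib, sum_mul]
  refine (norm_sum_le _ _).trans (le_of_eq (sum_congr rfl fun p _ => ?_))
  rw [smul_smul, ← sub_smul, norm_smul, norm_iterate, ← Real.norm_eq_abs, ← Complex.norm_real]
  push_cast
  congr 2
  ring

variable [CompleteSpace H]

/-- **Von Neumann's theorem** for the averages over `1, …, L`. -/
theorem exists_mean (V : H →ₗᵢ[ℂ] H) (z : H) :
    ∃ m : H, V m = m ∧
      Tendsto (fun L : ℕ => (L : ℂ)⁻¹ • ∑ n ∈ Icc 1 L, V^[n] z) atTop (𝓝 m) := by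
  refine ⟨_, ((V.toContinuousLinearMap.eqLocus (1 : H →L[ℂ] H)).orthogonalProjectionOnto (V z)).2,
    (V.toContinuousLinearMap.tendsto_birkhoffAverage_orthogonalProjection
      V.norm_toContinuousLinearMap_le (V z)).congr fun L => ?_⟩
  rw [birkhoffAverage, birkhoffSum]
  congr 1
  refine sum_nbij' (fun k => k + 1) (fun n => n - 1) ?_ ?_ ?_ ?_ ?_
  any_goals
    intro k hk
    simp only [mem_range, mem_Icc] at hk ⊢
    omega
  intro k _
  simp [Function.iterate_succ_apply]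

/-- The means along the classes converge. -/
theorem exists_tendsto_classMean (U : H →ₗᵢ[ℂ] H) (Q : ℕ) (x : H) :
    ∃ g : H, Tendsto (fun L : ℕ => classMean U Q L x) atTop (𝓝 g) := by
  choose m _ hm using fun a => exists_mean (U ^ Q) (U^[a] x)
  refine ⟨(Q.totient : ℂ)⁻¹ • ∑ a ∈ unitClasses Q, m a,
    Tendsto.congr (fun L => ?_) ((tendsto_finsetSum _ fun a _ => hm a).const_smul _)⟩
  simp only [classMean, LinearIsometry.coe_pow, ← Function.iterate_mul,
    ← Function.iterate_add_apply]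

/-- **The mean ergodic theorem along the primes.** -/
theorem exists_tendsto_primeSum (U : H →ₗᵢ[ℂ] H) (x : H) :
    ∃ l : H, Tendsto (fun N : ℕ => (N : ℂ)⁻¹ • primeSum U N x) atTop (𝓝 l) := by
  refine cauchySeq_tendsto_of_complete (Metric.cauchySeq_iff.2 fun ε hε => ?_)
  obtain ⟨η, hη⟩ : ∃ η, η = min 1 (ε / (6 * (‖x‖ + 1))) := ⟨_, rfl⟩
  have hη0 : 0 < η := hη ▸ lt_min one_pos (by positivity)
  have hηε : η * ‖x‖ ≤ ε / 6 := by
    have h : η ≤ ε / (6 * (‖x‖ + 1)) := hη ▸ min_le_right _ _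
    rw [le_div_iff₀ (by positivity)] at h
    linarith
  obtain ⟨Q, hQ, hev⟩ := exists_close_classMean (H := H) hη0 (hη ▸ min_le_left _ _)
  obtain ⟨g, hg⟩ := exists_tendsto_classMean U Q x
  have hg' := hg.comp (Nat.tendsto_div_const_atTop hQ.ne')
  obtain ⟨N₀, hN₀⟩ := eventually_atTop.1
    (hev.and (hg'.eventually (Metric.ball_mem_nhds g (show 0 < ε / 6 by positivity))))
  refine ⟨N₀, fun M hM N hN => ?_⟩
  have h1 := hN₀ M hM
  have h2 := hN₀ N hN
  have hd : ∀ K : ℕ, (∀ (V : H →ₗᵢ[ℂ] H) (y : H),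
      ‖(K : ℂ)⁻¹ • primeSum V K y - classMean V Q (K / Q) y‖ ≤ η * ‖y‖) ∧
      classMean U Q (K / Q) x ∈ Metric.ball g (ε / 6) →
      dist ((K : ℂ)⁻¹ • primeSum U K x) g < ε / 2 := by
    rintro K ⟨hK, hK'⟩
    refine (dist_triangle _ (classMean U Q (K / Q) x) _).trans_lt ?_
    rw [Metric.mem_ball] at hK'
    have := hK U x
    rw [← dist_eq_norm] at this
    linarith
  exact (dist_triangle_right _ _ g).trans_lt (by linarith [hd M h1, hd N h2])

/-- **The averages `(π N)⁻¹ ∑ Uᵖ x` converge.** -/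
theorem exists_tendsto_average (U : H →ₗᵢ[ℂ] H) (x : H) :
    ∃ l : H, Tendsto (fun N : ℕ => (π N : ℂ)⁻¹ • ∑ p ∈ (Icc 1 N).filter Nat.Prime, U^[p] x)
      atTop (𝓝 l) := by
  obtain ⟨l, hl⟩ := exists_tendsto_primeSum U x
  refine ⟨l, ?_⟩
  simpa using (tendsto_average_sub U x).add hl

/-- If the fixed vectors of every power are fixed by `U` the limit is the mean along `U`. -/
theorem tendsto_average_of_fixed (U : H →ₗᵢ[ℂ] H)
    (hfix : ∀ q : ℕ, 0 < q → ∀ m : H, U^[q] m = m → U m = m) (x : H) {m : H}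
    (hm : Tendsto (fun L : ℕ => (L : ℂ)⁻¹ • ∑ n ∈ Icc 1 L, U^[n] x) atTop (𝓝 m)) :
    Tendsto (fun N : ℕ => (π N : ℂ)⁻¹ • ∑ p ∈ (Icc 1 N).filter Nat.Prime, U^[p] x) atTop (𝓝 m) := by
  obtain ⟨l, hl⟩ := exists_tendsto_average U x
  suffices h : l = m by rwa [h] at hl
  obtain ⟨l', hl'⟩ := exists_tendsto_primeSum U x
  have hll : l = l' := by
    refine tendsto_nhds_unique ?_ hl'
    simpa using hl.sub (tendsto_average_sub U x)
  rw [hll]
  refine eq_of_forall_dist_le fun ε hε => ?_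
  obtain ⟨η, hη⟩ : ∃ η, η = min 1 (ε / (‖x‖ + 1)) := ⟨_, rfl⟩
  have hη0 : 0 < η := hη ▸ lt_min one_pos (by positivity)
  have hηε : η * ‖x‖ ≤ ε := by
    have h : η ≤ ε / (‖x‖ + 1) := hη ▸ min_le_right _ _
    rw [le_div_iff₀ (by positivity)] at h
    linarith
  obtain ⟨Q, hQ, hev⟩ := exists_close_classMean (H := H) hη0 (hη ▸ min_le_left _ _)
  obtain ⟨u, hu1, hu⟩ := exists_mean (U ^ Q) x
  rw [LinearIsometry.coe_pow] at hu1
  have hUu : U u = u := hfix Q hQ u hu1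
  have hUk : ∀ a, U^[a] u = u := fun a => Function.IsFixedPt.iterate hUu a
  have hclass : Tendsto (fun L => classMean U Q L x) atTop (𝓝 u) := by
    have h : Tendsto (fun L : ℕ => (Q.totient : ℂ)⁻¹ • ∑ a ∈ unitClasses Q,
        U^[a] ((L : ℂ)⁻¹ • ∑ n ∈ Icc 1 L, (U ^ Q)^[n] x)) atTop
        (𝓝 ((Q.totient : ℂ)⁻¹ • ∑ a ∈ unitClasses Q, U^[a] u)) :=
      (tendsto_finsetSum _ fun a _ => ((U.continuous.iterate a).tendsto u).comp hu).const_smul _
    have hQ' : (Q.totient : ℂ) ≠ 0 := Nat.cast_ne_zero.2 (Nat.totient_pos.2 hQ).ne'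
    simp only [hUk, sum_const, card_unitClasses, ← Nat.cast_smul_eq_nsmul ℂ, smul_smul,
      inv_mul_cancel₀ hQ', one_smul] at h
    refine h.congr fun L => ?_
    simp only [classMean, ← LinearIsometry.coe_pow, map_smul, map_sum]
    simp only [LinearIsometry.coe_pow, ← Function.iterate_mul, ← Function.iterate_add_apply,
      add_comm]
  have hum : u = m := by
    have h : Tendsto (fun K : ℕ => ((Q * K : ℕ) : ℂ)⁻¹ • ∑ n ∈ Icc 1 (Q * K), U^[n] x) atTop
        (𝓝 m) :=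
      hm.comp (tendsto_atTop_mono (fun K => Nat.le_mul_of_pos_left K hQ) tendsto_id)
    refine tendsto_nhds_unique ?_ h
    have h2 : Tendsto (fun K : ℕ => (Q : ℂ)⁻¹ • ∑ j ∈ Icc 1 Q,
        U^[j] ((K : ℂ)⁻¹ • ∑ i ∈ range K, (U ^ Q)^[i] x)) atTop
        (𝓝 ((Q : ℂ)⁻¹ • ∑ j ∈ Icc 1 Q, U^[j] u)) := by
      refine (tendsto_finsetSum _ fun a _ =>
        ((U.continuous.iterate a).tendsto u).comp ?_).const_smul _
      have h3 : Tendsto (fun K : ℕ => (K : ℂ)⁻¹ • (x - (U ^ Q)^[K] x)) atTop (𝓝 0) := by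
        refine squeeze_zero_norm (a := fun K : ℕ => 2 * ‖x‖ / K) (fun K => ?_)
          (tendsto_const_div_atTop_nhds_zero_nat _)
        rw [norm_smul, norm_inv, Complex.norm_natCast, div_eq_mul_inv, mul_comm (2 * ‖x‖)]
        refine mul_le_mul_of_nonneg_left ((norm_sub_le _ _).trans ?_) (by positivity)
        rw [norm_iterate]
        linarith
      have h4 := hu.add h3
      rw [add_zero] at h4
      refine h4.congr fun K => ?_
      rw [← smul_add]
      congr 1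
      induction K with
      | zero => simp
      | succ K ih =>
        rw [sum_range_succ, ← ih, sum_Icc_succ_top (by omega)]
        abel
    have hQ' : (Q : ℂ) ≠ 0 := Nat.cast_ne_zero.2 hQ.ne'
    simp only [hUk, sum_const, Nat.card_Icc, Nat.add_sub_cancel, ← Nat.cast_smul_eq_nsmul ℂ,
      smul_smul, inv_mul_cancel₀ hQ', one_smul] at h2
    refine h2.congr fun K => ?_
    simp only [← LinearIsometry.coe_pow, map_smul, map_sum]
    simp only [LinearIsometry.coe_pow, ← Function.iterate_mul, ← Function.iterate_add_apply,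
      ← smul_sum, smul_smul]
    rw [Nat.cast_mul, mul_inv, sum_comm]
    congr 1
    induction K with
    | zero => simp
    | succ K ih =>
      rw [sum_range_succ, ih, show Q * (K + 1) = Q * K + Q by ring]
      rw [show Icc 1 (Q * K + Q) = Icc 1 (Q * K) ∪ Icc (Q * K + 1) (Q * K + Q) by
        ext n; simp only [mem_union, mem_Icc]; omega,
        sum_union (Finset.disjoint_left.2 fun n h1 h2 => by
          rw [mem_Icc] at h1 h2; omega)]
      congr 1
      refine sum_nbij' (fun j => Q * K + j) (fun n => n - Q * K) ?_ ?_ ?_ ?_ ?_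
      any_goals
        intro j hj
        simp only [mem_Icc] at hj ⊢
        omega
      intro j _
      rw [add_comm]
  refine le_of_tendsto ((hl'.dist (hum ▸ hclass.comp (Nat.tendsto_div_const_atTop hQ.ne')))) ?_
  filter_upwards [hev] with N hN
  rw [dist_eq_norm]
  exact (hN U x).trans hηε

end FA.PrimeMeanErgodic
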