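import Fermat.Agent.PrimeMeanErgodic.Averages
import Mathlib.Dynamics.Ergodic.Function
import Mathlib.MeasureTheory.Function.L2Space

/-!
# The mean ergodic theorem along the primes for measure preserving maps

The composition with a measure preserving map is an isometry of `L²`; also the averages along
`p - 1` and `p + 1`, and the limit for totally ergodic maps.
-/

set_option autoImplicit false

noncomputable section

namespace FA.PrimeMeanErgodic

open Finset Filter MeasureTheory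
open scoped Topology Nat.Prime InnerProductSpace ENNReal

section Isometry

variable {H : Type*} [NormedAddCommGroup H] [InnerProductSpace ℂ H] [CompleteSpace H]

/-- The averages along `p - 1`. -/
theorem exists_tendsto_average_pred (U : H →ₗᵢ[ℂ] H) (x : H) :
    ∃ l : H, Tendsto (fun N : ℕ => (π N : ℂ)⁻¹ • ∑ p ∈ (Icc 1 N).filter Nat.Prime, U^[p - 1] x)
      atTop (𝓝 l) := by
  obtain ⟨l, hl⟩ := exists_tendsto_average U x
  have e : ∀ N : ℕ, U ((π N : ℂ)⁻¹ • ∑ p ∈ (Icc 1 N).filter Nat.Prime, U^[p - 1] x) =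
      (π N : ℂ)⁻¹ • ∑ p ∈ (Icc 1 N).filter Nat.Prime, U^[p] x := fun N => by
    rw [map_smul, map_sum]
    refine congrArg _ (sum_congr rfl fun p hp => ?_)
    rw [← Function.iterate_succ_apply' (f := ⇑U)]
    congr 1
    rw [mem_filter, mem_Icc] at hp
    omega
  refine cauchySeq_tendsto_of_complete (Metric.cauchySeq_iff.2 fun ε hε => ?_)
  obtain ⟨N₀, hN₀⟩ := Metric.cauchySeq_iff.1 hl.cauchySeq ε hε
  exact ⟨N₀, fun M hM N hN => by
    rw [← U.isometry.dist_eq, e, e]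
    exact hN₀ M hM N hN⟩

/-- The averages along `p + 1`. -/
theorem exists_tendsto_average_succ (U : H →ₗᵢ[ℂ] H) (x : H) :
    ∃ l : H, Tendsto (fun N : ℕ => (π N : ℂ)⁻¹ • ∑ p ∈ (Icc 1 N).filter Nat.Prime, U^[p + 1] x)
      atTop (𝓝 l) := by
  obtain ⟨l, hl⟩ := exists_tendsto_average U (U x)
  exact ⟨l, hl.congr fun N => by simp only [Function.iterate_succ_apply]⟩

end Isometry

variable {Ω : Type*} [MeasurableSpace Ω] {μ : Measure Ω} {T : Ω → Ω}

/-- Composition with `T` on `L²`. -/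
def koopman (hT : MeasurePreserving T μ μ) : Lp ℂ 2 μ →ₗᵢ[ℂ] Lp ℂ 2 μ :=
  Lp.compMeasurePreservingₗᵢ ℂ T hT

theorem coeFn_koopman_iterate (hT : MeasurePreserving T μ μ) (n : ℕ) (f : Lp ℂ 2 μ) :
    (((koopman hT)^[n] f : Lp ℂ 2 μ) : Ω → ℂ) =ᵐ[μ] fun ω => f (T^[n] ω) := by
  rw [show (⇑(koopman hT))^[n] f = Lp.compMeasurePreserving T^[n] (hT.iterate n) f from
    congrFun (Lp.compMeasurePreserving_iterate hT n) f]
  exact Lp.coeFn_compMeasurePreserving f (hT.iterate n)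

theorem coeFn_average (hT : MeasurePreserving T μ μ) {g : Ω → ℂ} (hg : MemLp g 2 μ)
    (s : Finset ℕ) (k : ℕ → ℕ) (c : ℂ) :
    ((c • ∑ p ∈ s, (koopman hT)^[k p] (hg.toLp g) : Lp ℂ 2 μ) : Ω → ℂ) =ᵐ[μ]
      fun ω => c * ∑ p ∈ s, g (T^[k p] ω) := by
  classical
  have h : ((∑ p ∈ s, (koopman hT)^[k p] (hg.toLp g) : Lp ℂ 2 μ) : Ω → ℂ) =ᵐ[μ]
      fun ω => ∑ p ∈ s, g (T^[k p] ω) := by
    induction s using Finset.induction_on with
    | empty =>
      simp only [sum_empty]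
      exact Lp.coeFn_zero ℂ 2 μ
    | insert a s ha ih =>
      simp only [sum_insert ha]
      refine (Lp.coeFn_add _ _).trans ?_
      have h2 : (fun ω => (hg.toLp g) (T^[k a] ω)) =ᵐ[μ] fun ω => g (T^[k a] ω) :=
        (hT.iterate (k a)).quasiMeasurePreserving.ae_eq hg.coeFn_toLp
      filter_upwards [ih, (coeFn_koopman_iterate hT (k a) (hg.toLp g)).trans h2] with ω h1 h3
      simp only [Pi.add_apply, h1, h3]
  refine (Lp.coeFn_smul _ _).trans ?_
  filter_upwards [h] with ω h1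
  simp only [Pi.smul_apply, h1, smul_eq_mul]

/-- `L²` convergence in terms of functions. -/
theorem tendsto_eLpNorm_average (hT : MeasurePreserving T μ μ) {g : Ω → ℂ} (hg : MemLp g 2 μ)
    (k : ℕ → ℕ) {l : Lp ℂ 2 μ} {l' : Ω → ℂ} (hl' : (l : Ω → ℂ) =ᵐ[μ] l')
    (h : Tendsto (fun N : ℕ => (π N : ℂ)⁻¹ •
      ∑ p ∈ (Icc 1 N).filter Nat.Prime, (koopman hT)^[k p] (hg.toLp g)) atTop (𝓝 l)) :
    Tendsto (fun N : ℕ => eLpNorm (fun ω => (π N : ℂ)⁻¹ *
      (∑ p ∈ (Icc 1 N).filter Nat.Prime, g (T^[k p] ω)) - l' ω) 2 μ) atTop (𝓝 0) := by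
  refine ((Lp.tendsto_Lp_iff_tendsto_eLpNorm' _ _).1 h).congr fun N => eLpNorm_congr_ae ?_
  filter_upwards [coeFn_average hT hg ((Icc 1 N).filter Nat.Prime) k ((π N : ℂ)⁻¹), hl']
    with ω h1 h2
  rw [Pi.sub_apply, h1, h2]

/-- **The mean ergodic theorem along the primes**, and along `p - 1` and `p + 1`. -/
theorem exists_prime_mean (hT : MeasurePreserving T μ μ) {g : Ω → ℂ} (hg : MemLp g 2 μ)
    (k : ℕ → ℕ) (hk : k = (fun p => p) ∨ k = (fun p => p - 1) ∨ k = (fun p => p + 1)) :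
    ∃ l : Ω → ℂ, MemLp l 2 μ ∧ Tendsto (fun N : ℕ => eLpNorm (fun ω => (π N : ℂ)⁻¹ *
      (∑ p ∈ (Icc 1 N).filter Nat.Prime, g (T^[k p] ω)) - l ω) 2 μ) atTop (𝓝 0) := by
  obtain ⟨l, hl⟩ : ∃ l : Lp ℂ 2 μ, Tendsto (fun N : ℕ => (π N : ℂ)⁻¹ •
      ∑ p ∈ (Icc 1 N).filter Nat.Prime, (koopman hT)^[k p] (hg.toLp g)) atTop (𝓝 l) := by
    rcases hk with rfl | rfl | rfl
    · exact exists_tendsto_average _ _
    · exact exists_tendsto_average_pred _ _
    · exact exists_tendsto_average_succ _ _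
  exact ⟨l, Lp.memLp l, tendsto_eLpNorm_average hT hg k (ae_eq_refl _) hl⟩

variable [IsProbabilityMeasure μ]

/-- The limit in `L²` for totally ergodic maps. -/
theorem tendsto_average_ergodic (hT : MeasurePreserving T μ μ)
    (herg : ∀ q : ℕ, 0 < q → Ergodic T^[q] μ) (f : Lp ℂ 2 μ) :
    Tendsto (fun N : ℕ => (π N : ℂ)⁻¹ •
      ∑ p ∈ (Icc 1 N).filter Nat.Prime, (koopman hT)^[p] f) atTop
      (𝓝 ((∫ ω, f ω ∂μ) • indicatorConstLp 2 MeasurableSet.univ (measure_ne_top μ _) (1 : ℂ))) := by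
  obtain ⟨one, hone⟩ : ∃ one : Lp ℂ 2 μ, one =
      indicatorConstLp 2 MeasurableSet.univ (measure_ne_top μ _) (1 : ℂ) := ⟨_, rfl⟩
  rw [← hone]
  have hone1 : (one : Ω → ℂ) =ᵐ[μ] fun _ => 1 := by
    rw [hone]
    exact indicatorConstLp_coeFn.trans (by simp)
  have hfixone : ∀ n : ℕ, (koopman hT)^[n] one = one := fun n => by
    refine Lp.ext ((coeFn_koopman_iterate hT n one).trans ?_)
    refine ((hT.iterate n).quasiMeasurePreserving.ae_eq hone1).trans ?_
    exact hone1.symm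
  have hconst : ∀ q : ℕ, 0 < q → ∀ m : Lp ℂ 2 μ, (koopman hT)^[q] m = m →
      ∃ c : ℂ, m = c • one := by
    intro q hq m hm
    have h1 := coeFn_koopman_iterate hT q m
    rw [hm] at h1
    obtain ⟨c, hc⟩ := (herg q hq).ae_eq_const_of_ae_eq_comp_ae (Lp.aestronglyMeasurable m) h1.symm
    refine ⟨c, Lp.ext (hc.trans ?_)⟩
    filter_upwards [Lp.coeFn_smul c one, hone1] with ω e1 e2
    rw [e1, Pi.smul_apply, e2, smul_eq_mul, mul_one, Function.const_apply]
  have hfix : ∀ q : ℕ, 0 < q → ∀ m : Lp ℂ 2 μ, (koopman hT)^[q] m = m → koopman hT m = m := by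
    intro q hq m hm
    obtain ⟨c, rfl⟩ := hconst q hq m hm
    rw [map_smul]
    exact congrArg _ (hfixone 1)
  obtain ⟨m, hm1, hm⟩ := exists_mean (koopman hT) f
  suffices h : m = (∫ ω, f ω ∂μ) • one by
    rw [← h]
    exact tendsto_average_of_fixed _ hfix f hm
  obtain ⟨c, hc⟩ := hconst 1 one_pos m hm1
  have hone2 : ⟪one, one⟫_ℂ = 1 := by
    rw [show ⟪one, one⟫_ℂ = ∫ ω, one ω ∂μ by
      conv_lhs => rw [hone]
      rw [L2.inner_indicatorConstLp_one MeasurableSet.univ, setIntegral_univ, ← hone],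
      integral_congr_ae hone1]
    simp
  have hlim : ⟪one, m⟫_ℂ = ⟪one, f⟫_ℂ := by
    refine tendsto_nhds_unique_of_eventuallyEq ((tendsto_const_nhds (x := one)).inner hm)
      tendsto_const_nhds ((eventually_ge_atTop 1).mono fun L hL => ?_)
    simp only [inner_smul_right, inner_sum]
    rw [sum_congr rfl fun n _ => show ⟪one, (koopman hT)^[n] f⟫_ℂ = ⟪one, f⟫_ℂ by
      conv_lhs => rw [← hfixone n, ← LinearIsometry.coe_pow, LinearIsometry.inner_map_map]]
    rw [sum_const, Nat.card_Icc, Nat.add_sub_cancel, nsmul_eq_mul, ← mul_assoc,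
      inv_mul_cancel₀ (Nat.cast_ne_zero.2 (show L ≠ 0 by omega)), one_mul]
  rw [hc, inner_smul_right, hone2, mul_one] at hlim
  rw [hc, hlim]
  conv_lhs => rw [hone, L2.inner_indicatorConstLp_one MeasurableSet.univ, setIntegral_univ, ← hone]

/-- **For totally ergodic maps the limit is the integral.** -/
theorem tendsto_prime_mean_integral (hT : MeasurePreserving T μ μ)
    (herg : ∀ q : ℕ, 0 < q → Ergodic T^[q] μ) {g : Ω → ℂ} (hg : MemLp g 2 μ) :
    Tendsto (fun N : ℕ => eLpNorm (fun ω => (π N : ℂ)⁻¹ *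
      (∑ p ∈ (Icc 1 N).filter Nat.Prime, g (T^[p] ω)) - ∫ x, g x ∂μ) 2 μ) atTop (𝓝 0) := by
  refine tendsto_eLpNorm_average hT hg (fun p => p) (l' := fun _ => ∫ x, g x ∂μ) ?_
    (tendsto_average_ergodic hT herg (hg.toLp g))
  rw [integral_congr_ae hg.coeFn_toLp]
  refine (Lp.coeFn_smul _ _).trans ?_
  filter_upwards [(indicatorConstLp_coeFn (μ := μ) (p := 2) (s := Set.univ)
    (hs := MeasurableSet.univ) (hμs := measure_ne_top μ _) (c := (1 : ℂ)))] with ω h
  simp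

/-- **Returns at prime times average to `μ (A) μ (B)`.** -/
theorem tendsto_prime_returns (hT : MeasurePreserving T μ μ)
    (herg : ∀ q : ℕ, 0 < q → Ergodic T^[q] μ) {A B : Set Ω} (hA : MeasurableSet A)
    (hB : MeasurableSet B) :
    Tendsto (fun N : ℕ => (π N : ℝ)⁻¹ *
      ∑ p ∈ (Icc 1 N).filter Nat.Prime, μ.real (A ∩ T^[p] ⁻¹' B)) atTop
        (𝓝 (μ.real A * μ.real B)) := by
  obtain ⟨u, hu⟩ : ∃ u : Lp ℂ 2 μ,
      u = indicatorConstLp 2 hA (measure_ne_top μ _) (1 : ℂ) := ⟨_, rfl⟩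
  obtain ⟨v, hv⟩ : ∃ v : Lp ℂ 2 μ,
      v = indicatorConstLp 2 hB (measure_ne_top μ _) (1 : ℂ) := ⟨_, rfl⟩
  have hp : ∀ p : ℕ, ⟪u, (koopman hT)^[p] v⟫_ℂ = (μ.real (A ∩ T^[p] ⁻¹' B) : ℂ) := fun p => by
    rw [hu, hv, show (⇑(koopman hT))^[p] (indicatorConstLp 2 hB (measure_ne_top μ _) (1 : ℂ)) =
      indicatorConstLp 2 ((hT.iterate p).measurable hB) (measure_ne_top μ _) (1 : ℂ) from
        (congrFun (Lp.compMeasurePreserving_iterate hT p) _).trans
          (Lp.indicatorConstLp_compMeasurePreserving hB (measure_ne_top μ _) (1 : ℂ)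
            (hT.iterate p))]
    rw [L2.inner_indicatorConstLp_one hA, setIntegral_congr_ae hA
      (indicatorConstLp_coeFn.mono fun ω h _ => h), setIntegral_indicator
      ((hT.iterate p).measurable hB)]
    simp
  have h := (tendsto_const_nhds (x := u)).inner (𝕜 := ℂ) (tendsto_average_ergodic hT herg v)
  have hlim : ⟪u, (∫ ω, v ω ∂μ) •
      indicatorConstLp 2 MeasurableSet.univ (measure_ne_top μ _) (1 : ℂ)⟫_ℂ =
        ((μ.real A * μ.real B : ℝ) : ℂ) := by
    rw [inner_smul_right, hu, L2.inner_indicatorConstLp_one hA, setIntegral_congr_ae hA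
      (indicatorConstLp_coeFn.mono fun ω h _ => h), setIntegral_indicator MeasurableSet.univ,
      hv, integral_congr_ae indicatorConstLp_coeFn, integral_indicator hB]
    simp [mul_comm]
  rw [hlim] at h
  have h2 := (Complex.continuous_re.tendsto _).comp h
  rw [Complex.ofReal_re] at h2
  refine h2.congr fun N => ?_
  simp only [Function.comp_apply, inner_smul_right, inner_sum, hp]
  rw [← Complex.ofReal_natCast, ← Complex.ofReal_inv, ← Complex.ofReal_sum, ← Complex.ofReal_mul,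
    Complex.ofReal_re]

end FA.PrimeMeanErgodic
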